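import Mathlib
import Fermat.Prelude.Def_GroupCohomology_ContinuousUnramified

set_option autoImplicit false

/-!
# CFT stream [D], bridge: `S55` from a dimension count

A perfect pairing between two finite-dimensional vector spaces exists as soon as they have the same
dimension.  Hence the frozen statement `S55` (existence of a perfect pairing between
`Ш¹_S(M^∨(1))` and `Ш²_S(M)`) follows from
`dim Ш¹_S(M^∨(1)) = dim Ш²_S(M) < ∞`.
-/

namespace Fermat.Agent.CFT

open Module

/-- Two finite-dimensional vector spaces of the same dimension admit a perfect pairing. -/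
theorem exists_perfect_pairing_of_finrank_eq {k V W : Type*} [Field k] [AddCommGroup V]
    [Module k V] [AddCommGroup W] [Module k W] [FiniteDimensional k V] [FiniteDimensional k W]
    (h : finrank k V = finrank k W) :
    ∃ B : V →ₗ[k] W →ₗ[k] k,
      (∀ y, (∀ x, B y x = 0) → y = 0) ∧ (∀ x, (∀ y, B y x = 0) → x = 0) := by
  have h' : finrank k V = finrank k (Module.Dual k W) := by
    rw [h, Subspace.dual_finrank_eq]
  obtain ⟨e⟩ := FiniteDimensional.nonempty_linearEquiv_of_finrank_eq h'
  refine ⟨e.toLinearMap, fun y hy => ?_, fun x hx => ?_⟩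
  · have : e y = 0 := LinearMap.ext fun x => by simpa using hy x
    exact e.map_eq_zero_iff.mp this
  · rw [← Module.forall_dual_apply_eq_zero_iff k x]
    intro φ
    have := hx (e.symm φ)
    simpa using this

open groupCohomology ExtCitation

/-- **Reduction of `S55` to a dimension count.**  The conclusion of the frozen statement `S55`
follows as soon as `Ш¹_S(M^∨(1))` and `Ш²_S(M)` are finite-dimensional of the same dimension. -/
theorem S55_of_finrank_eq {p : ℕ} [Fact p.Prime] (S : Finset Nat.Primes)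
    (M : Rep (ZMod p) (AlgebraicClosure ℚ ≃ₐ[ℚ] AlgebraicClosure ℚ))
    (h₁ : Module.Finite (ZMod p) (sha₁ S (M.dualTwist (cycloChar p))))
    (h₂ : Module.Finite (ZMod p) (sha₂ S M))
    (h : finrank (ZMod p) (sha₁ S (M.dualTwist (cycloChar p))) = finrank (ZMod p) (sha₂ S M)) :
    ∃ B : sha₁ S (M.dualTwist (cycloChar p)) →ₗ[ZMod p] sha₂ S M →ₗ[ZMod p] ZMod p,
      (∀ y, (∀ x, B y x = 0) → y = 0) ∧ (∀ x, (∀ y, B y x = 0) → x = 0) :=
  exists_perfect_pairing_of_finrank_eq h

/-- Variant: it is enough to produce a linear equivalence `Ш²_S(M) ≃ Ш¹_S(M^∨(1))^*` (the shape in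
which Poitou–Tate duality produces it) together with finite-dimensionality of `Ш¹`. -/
theorem S55_of_equiv_dual {p : ℕ} [Fact p.Prime] (S : Finset Nat.Primes)
    (M : Rep (ZMod p) (AlgebraicClosure ℚ ≃ₐ[ℚ] AlgebraicClosure ℚ))
    (h₁ : Module.Finite (ZMod p) (sha₁ S (M.dualTwist (cycloChar p))))
    (e : sha₂ S M ≃ₗ[ZMod p] Module.Dual (ZMod p) (sha₁ S (M.dualTwist (cycloChar p)))) :
    ∃ B : sha₁ S (M.dualTwist (cycloChar p)) →ₗ[ZMod p] sha₂ S M →ₗ[ZMod p] ZMod p,
      (∀ y, (∀ x, B y x = 0) → y = 0) ∧ (∀ x, (∀ y, B y x = 0) → x = 0) := by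
  haveI : Module.Finite (ZMod p) (sha₂ S M) := Module.Finite.equiv e.symm
  refine S55_of_finrank_eq S M h₁ inferInstance ?_
  rw [e.finrank_eq, Subspace.dual_finrank_eq]

end Fermat.Agent.CFT
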