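import Mathlib

set_option autoImplicit false

/-!
# CFT stream [D]: linear-algebra endgame for duality statements

* `exists_nondegenerate_pairing_of_rank_eq`: two vector spaces of the same dimension admit a bilinear
  pairing which is nondegenerate on both sides (the shape of the conclusion of S55);
* `finrank_ker_eq_of_dual_square`: the abstract "middle of the Poitou–Tate sequence":
  from an exact sequence `P₁J → H₁C → H₂E → P₂` and perfect pairings `H₁C × H₁M → k`,
  `P₁J × P₁M → k` compatible with `π : P₁J → H₁C` and `loc₁ : H₁M → P₁M`, one gets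
  `dim ker (H₂E → P₂) = dim ker loc₁`.
-/

namespace Fermat.Agent.CFT

open Module

universe u

section Pairing

variable {k : Type u} [Field k] {V W : Type u} [AddCommGroup V] [Module k V]
  [AddCommGroup W] [Module k W]

/-- Two vector spaces of the same dimension carry a pairing that is nondegenerate on both sides. -/
theorem exists_nondegenerate_pairing_of_rank_eq (h : Module.rank k V = Module.rank k W) :
    ∃ B : V →ₗ[k] W →ₗ[k] k,
      (∀ y, (∀ x, B y x = 0) → y = 0) ∧ (∀ x, (∀ y, B y x = 0) → x = 0) := by
  classical
  obtain ⟨⟨I, bV⟩⟩ := Module.Free.exists_basis (R := k) (M := V)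
  obtain ⟨⟨J, bW⟩⟩ := Module.Free.exists_basis (R := k) (M := W)
  have hcard : Cardinal.mk I = Cardinal.mk J := by
    have h1 := bV.mk_eq_rank''
    have h2 := bW.mk_eq_rank''
    rw [h1, h2, h]
  obtain ⟨e⟩ := Cardinal.eq.mp hcard
  -- transport the basis of `W` to the index set `I`
  let bW' : Basis I k W := bW.reindex e.symm
  -- `B (bV i) (bW' j) = δ_ij`
  let B : V →ₗ[k] W →ₗ[k] k :=
    bV.constr k (fun i => bW'.coord i)
  have hB : ∀ i j, B (bV i) (bW' j) = if j = i then 1 else 0 := by
    intro i j
    show (bV.constr k (fun i => bW'.coord i)) (bV i) (bW' j) = _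
    rw [Basis.constr_basis, Basis.coord_apply, Basis.repr_self, Finsupp.single_apply]
  have hBy : ∀ (y : V) (j : I), B y (bW' j) = bV.repr y j := by
    intro y j
    have hy : y = ∑ i ∈ (bV.repr y).support, bV.repr y i • bV i := by
      conv_lhs => rw [← bV.linearCombination_repr y]
      rw [Finsupp.linearCombination_apply, Finsupp.sum]
    conv_lhs => rw [hy]
    rw [map_sum, LinearMap.sum_apply]
    simp only [map_smul, LinearMap.smul_apply, hB, smul_eq_mul, mul_ite, mul_one, mul_zero]
    rw [Finset.sum_ite_eq]
    split_ifs with hj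
    · rfl
    · exact (Finsupp.notMem_support_iff.mp hj).symm
  have hBx : ∀ (x : W) (i : I), B (bV i) x = bW'.repr x i := by
    intro x i
    show (bV.constr k (fun i => bW'.coord i)) (bV i) x = _
    rw [Basis.constr_basis, Basis.coord_apply]
  refine ⟨B, ?_, ?_⟩
  · intro y hy
    apply bV.repr.injective
    ext j
    rw [← hBy, hy]
    simp
  · intro x hx
    apply bW'.repr.injective
    ext i
    rw [← hBx, hx]
    simp

/-- Finite-dimensional version: equal `finrank` suffices. -/
theorem exists_nondegenerate_pairing_of_finrank_eq [FiniteDimensional k V] [FiniteDimensional k W]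
    (h : finrank k V = finrank k W) :
    ∃ B : V →ₗ[k] W →ₗ[k] k,
      (∀ y, (∀ x, B y x = 0) → y = 0) ∧ (∀ x, (∀ y, B y x = 0) → x = 0) := by
  apply exists_nondegenerate_pairing_of_rank_eq
  rw [← finrank_eq_rank k V, ← finrank_eq_rank k W, h]

end Pairing

section Square

variable {k : Type*} [Field k]
variable {H1M P1M H1C P1J H2E P2 : Type*}
  [AddCommGroup H1M] [Module k H1M] [AddCommGroup P1M] [Module k P1M]
  [AddCommGroup H1C] [Module k H1C] [AddCommGroup P1J] [Module k P1J]
  [AddCommGroup H2E] [Module k H2E] [AddCommGroup P2] [Module k P2]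

/-- **Abstract middle of the Poitou–Tate sequence.** -/
theorem finrank_ker_eq_of_dual_square
    [FiniteDimensional k H1M] [FiniteDimensional k H1C]
    (loc1 : H1M →ₗ[k] P1M) (π : P1J →ₗ[k] H1C) (δ : H1C →ₗ[k] H2E) (loc2 : H2E →ₗ[k] P2)
    (hex1 : LinearMap.range π = LinearMap.ker δ)
    (hex2 : LinearMap.range δ = LinearMap.ker loc2)
    (Bg : H1C →ₗ[k] H1M →ₗ[k] k) (Bl : P1J →ₗ[k] P1M →ₗ[k] k)
    (hBg_left : ∀ c, (∀ m, Bg c m = 0) → c = 0)
    (hBg_right : ∀ m, (∀ c, Bg c m = 0) → m = 0)
    (hBl_right : ∀ y : P1M, (∀ x, Bl x y = 0) → y = 0)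
    (hcompat : ∀ x m, Bg (π x) m = Bl x (loc1 m)) :
    finrank k (LinearMap.ker loc2) = finrank k (LinearMap.ker loc1) := by
  classical
  -- `ker loc2 = range δ ≅ H1C / ker δ = H1C / range π`
  have h1 : finrank k (LinearMap.ker loc2) = finrank k (H1C ⧸ LinearMap.range π) := by
    rw [← hex2, hex1]
    exact (LinearEquiv.finrank_eq (LinearMap.quotKerEquivRange δ)).symm
  -- the global pairing is perfect: `H1C ≃ Dual H1M`
  have hdim : finrank k H1C = finrank k H1M := by
    have hinj1 : Function.Injective Bg := by
      rw [injective_iff_map_eq_zero]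
      intro c hc
      exact hBg_left c (fun m => by rw [hc]; rfl)
    have hinj2 : Function.Injective Bg.flip := by
      rw [injective_iff_map_eq_zero]
      intro m hm
      exact hBg_right m (fun c => by
        have := congrArg (fun f => f c) hm
        simpa using this)
    have le1 := LinearMap.finrank_le_finrank_of_injective hinj1
    have le2 := LinearMap.finrank_le_finrank_of_injective hinj2
    rw [Subspace.dual_finrank_eq] at le1 le2
    exact le_antisymm le1 le2
  -- annihilator of `range π` in `H1M` is `ker loc1`
  have hann : ∀ m : H1M, (∀ x, Bg (π x) m = 0) ↔ m ∈ LinearMap.ker loc1 := by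
    intro m
    constructor
    · intro h
      rw [LinearMap.mem_ker]
      exact hBl_right _ (fun x => by rw [← hcompat]; exact h x)
    · intro h x
      rw [hcompat, LinearMap.mem_ker.mp h, map_zero]
  -- dimension count via the perfect pairing
  -- dim (range π)^⊥ = dim H1M - dim range π, and (range π)^⊥ = ker loc1
  have hperp : finrank k (LinearMap.ker loc1) + finrank k (LinearMap.range π) = finrank k H1M := by
    -- the map `H1M → Dual (range π)`, `m ↦ (c ↦ Bg c m)` is surjective with kernel `ker loc1`
    let Ψ : H1M →ₗ[k] (LinearMap.range π →ₗ[k] k) :=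
      (LinearMap.lcomp k k (LinearMap.range π).subtype) ∘ₗ Bg.flip
    have hΨker : LinearMap.ker Ψ = LinearMap.ker loc1 := by
      ext m
      rw [← hann m, LinearMap.mem_ker]
      constructor
      · intro h x
        have := congrArg (fun f => f ⟨π x, ⟨x, rfl⟩⟩) h
        simpa [Ψ] using this
      · intro h
        ext ⟨c, ⟨x, rfl⟩⟩
        simpa [Ψ] using h x
    have hΨsurj : Function.Surjective Ψ := by
      -- `Bg.flip : H1M → Dual H1C` is bijective (injective + equal dimensions), and restriction
      -- `Dual H1C → Dual (range π)` is surjective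
      have hinj2 : Function.Injective Bg.flip := by
        rw [injective_iff_map_eq_zero]
        intro m hm
        exact hBg_right m (fun c => by
          have := congrArg (fun f => f c) hm
          simpa using this)
      have hbij : Function.Surjective Bg.flip := by
        have hfr : finrank k H1M = finrank k (H1C →ₗ[k] k) := by
          rw [Subspace.dual_finrank_eq, hdim]
        exact (LinearMap.injective_iff_surjective_of_finrank_eq_finrank hfr).mp hinj2
      intro f
      obtain ⟨g, hg⟩ := LinearMap.exists_extend f
      obtain ⟨m, hm⟩ := hbij g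
      refine ⟨m, ?_⟩
      ext c
      have := congrArg (fun h => h c) hg
      simp only [LinearMap.coe_comp, Function.comp_apply, Submodule.coe_subtype] at this
      show Bg.flip m c = f c
      rw [hm, this]
    have := LinearMap.finrank_range_add_finrank_ker Ψ
    rw [LinearMap.range_eq_top.mpr hΨsurj, finrank_top, Subspace.dual_finrank_eq, hΨker] at this
    omega
  have hquot := Submodule.finrank_quotient_add_finrank (LinearMap.range π)
  rw [h1]
  omega

end Square

end Fermat.Agent.CFT
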