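/-
CFT stream [D] (helper24): pure linear-algebra endgame for S55.

A statement of the shape
  `∃ B : V →ₗ[k] W →ₗ[k] k, (∀ y, (∀ x, B y x = 0) → y = 0) ∧ (∀ x, (∀ y, B y x = 0) → x = 0)`
follows from any of:
* `V ≃ₗ[k] Module.Dual k W` with `W` finite-dimensional;
* `W ≃ₗ[k] Module.Dual k V` with `V` finite-dimensional;
* `finrank V = finrank W` for finite-dimensional `V`, `W`;
* injective maps `V →ₗ Dual W`, `W →ₗ Dual V` with `V`, `W` finite-dimensional.
-/
import Mathlib

set_option autoImplicit false

namespace Fermat.Agent.CFT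

open Module

variable {k V W : Type*} [Field k] [AddCommGroup V] [Module k V] [AddCommGroup W] [Module k W]

/-- A pairing coming from an isomorphism `V ≃ Dual W` is non-degenerate on both sides
(as soon as `W` is finite-dimensional; in fact no finiteness is needed). -/
theorem exists_nondeg_pairing_of_equiv_dual (e : V ≃ₗ[k] Dual k W) :
    ∃ B : V →ₗ[k] W →ₗ[k] k,
      (∀ y, (∀ x, B y x = 0) → y = 0) ∧ (∀ x, (∀ y, B y x = 0) → x = 0) := by
  refine ⟨e.toLinearMap, fun y hy => ?_, fun x hx => ?_⟩
  · have : e y = 0 := LinearMap.ext fun x => by simpa using hy x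
    exact (LinearEquiv.map_eq_zero_iff e).1 this
  · refine (Module.forall_dual_apply_eq_zero_iff k x).1 fun φ => ?_
    have := hx (e.symm φ)
    simpa using this

/-- Same with the roles exchanged: an isomorphism `W ≃ Dual V`. -/
theorem exists_nondeg_pairing_of_equiv_dual' (e : W ≃ₗ[k] Dual k V) :
    ∃ B : V →ₗ[k] W →ₗ[k] k,
      (∀ y, (∀ x, B y x = 0) → y = 0) ∧ (∀ x, (∀ y, B y x = 0) → x = 0) := by
  obtain ⟨B, h1, h2⟩ := exists_nondeg_pairing_of_equiv_dual e
  exact ⟨B.flip, fun y hy => h2 y fun x => by simpa using hy x,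
    fun x hx => h1 x fun y => by simpa using hx y⟩

/-- Two finite-dimensional spaces of the same dimension carry a pairing which is
non-degenerate on both sides. -/
theorem exists_nondeg_pairing_of_finrank_eq [FiniteDimensional k V] [FiniteDimensional k W]
    (h : finrank k V = finrank k W) :
    ∃ B : V →ₗ[k] W →ₗ[k] k,
      (∀ y, (∀ x, B y x = 0) → y = 0) ∧ (∀ x, (∀ y, B y x = 0) → x = 0) := by
  have h' : finrank k V = finrank k (Dual k W) := by rw [h, Subspace.dual_finrank_eq]
  exact exists_nondeg_pairing_of_equiv_dual (LinearEquiv.ofFinrankEq V (Dual k W) h')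

/-- If `V` embeds in `Dual W` and `W` embeds in `Dual V` (finite-dimensional), then the
dimensions agree, hence a two-sided non-degenerate pairing exists. -/
theorem exists_nondeg_pairing_of_injective [FiniteDimensional k V] [FiniteDimensional k W]
    (f : V →ₗ[k] Dual k W) (hf : Function.Injective f)
    (g : W →ₗ[k] Dual k V) (hg : Function.Injective g) :
    ∃ B : V →ₗ[k] W →ₗ[k] k,
      (∀ y, (∀ x, B y x = 0) → y = 0) ∧ (∀ x, (∀ y, B y x = 0) → x = 0) := by
  refine exists_nondeg_pairing_of_finrank_eq (le_antisymm ?_ ?_)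
  · calc finrank k V ≤ finrank k (Dual k W) := LinearMap.finrank_le_finrank_of_injective hf
      _ = finrank k W := Subspace.dual_finrank_eq
  · calc finrank k W ≤ finrank k (Dual k V) := LinearMap.finrank_le_finrank_of_injective hg
      _ = finrank k V := Subspace.dual_finrank_eq

/-- A single pairing which is non-degenerate on the left, together with
`finrank W ≤ finrank V`, is non-degenerate on both sides. -/
theorem nondeg_right_of_nondeg_left [FiniteDimensional k V] [FiniteDimensional k W]
    (B : V →ₗ[k] W →ₗ[k] k) (hB : ∀ y, (∀ x, B y x = 0) → y = 0)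
    (hle : finrank k W ≤ finrank k V) :
    ∀ x, (∀ y, B y x = 0) → x = 0 := by
  have hinj : Function.Injective B := by
    rw [← LinearMap.ker_eq_bot, LinearMap.ker_eq_bot']
    intro y hy
    exact hB y fun x => by rw [hy]; rfl
  have hdim : finrank k V = finrank k (Dual k W) := by
    apply le_antisymm (LinearMap.finrank_le_finrank_of_injective hinj)
    rw [Subspace.dual_finrank_eq]; exact hle
  have hsurj : Function.Surjective B :=
    (LinearMap.injective_iff_surjective_of_finrank_eq_finrank hdim).1 hinj
  intro x hx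
  refine (Module.forall_dual_apply_eq_zero_iff k x).1 fun φ => ?_
  obtain ⟨y, rfl⟩ := hsurj φ
  exact hx y

end Fermat.Agent.CFT
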